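import Fermat.Agent.JEr.Rig
import Fermat.Agent.JE.ToLD
import Fermat.Agent.JCB.ChartB

/-!
# S25, block E: rigidified line data and rigidified modules
-/

set_option autoImplicit false

universe u

open CategoryTheory CategoryTheory.Limits AlgebraicGeometry TopologicalSpace Opposite
open AlgebraicGeometry.Scheme NeronModelInfra AlgebraicGeometry.RelPicard
open Fermat.Agent.JPb (Gen pb un)
open scoped TensorProduct

namespace Fermat.Agent.JEr

open Fermat.Agent.JE Fermat.Agent.JPC Fermat.Agent.JCB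

noncomputable section

variable {k : Type u} [Field k] {C : Scheme.{u}} {c : C ⟶ Spec (CommRingCat.of k)}
  {ε : SchemeHomOver (𝟙 (Spec (CommRingCat.of k))) c} {X : TwoChart k} (ch : Chart c ε X)
  {B : Type u} [CommRing B] [Algebra k B] {Y : Scheme.{u}} {fst : Y ⟶ C}
  {snd : Y ⟶ Spec (CommRingCat.of B)}
  (H : IsPullback fst snd c (Spec.map (CommRingCat.ofHom (algebraMap k B))))

/-- evaluation at `ε_B` -/
def evB (X : TwoChart k) (B : Type u) [CommRing B] [Algebra k B] : B ⊗[k] X.A0 →ₐ[B] B :=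
  Algebra.TensorProduct.lift (AlgHom.id B B) ((Algebra.ofId k B).comp X.ev)
    (fun _ _ => mul_comm _ _)

theorem evB_tmul (b : B) (a : X.A0) : evB X B (b ⊗ₜ a) = b * algebraMap k B (X.ev a) := rfl

/-- functions on `Spec B` over an open equal to `⊤` -/
def bet {W : (Spec (CommRingCat.of B)).Opens} (hW : W = ⊤) : B ≃+* Γ(Spec (CommRingCat.of B), W) :=
  ((Scheme.ΓSpecIso (CommRingCat.of B)).symm ≪≫
    (Spec (CommRingCat.of B)).presheaf.mapIso (eqToIso hW).op).commRingCatIsoToRingEquiv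

theorem bet_apply {W : (Spec (CommRingCat.of B)).Opens} (hW : W = ⊤) (b : B) :
    bet hW b = ro hW.le ((Scheme.ΓSpecIso (CommRingCat.of B)).inv b) := rfl

variable (s : Spec (CommRingCat.of B) ⟶ Y) (hs : s ⁻¹ᵁ (fst ⁻¹ᵁ ch.U) = ⊤)

/-- `s` is the section `ε_B` -/
def IsEps : Prop := ∀ x : B ⊗[k] X.A0, s.appLE (fst ⁻¹ᵁ ch.U) ⊤ hs.ge (mu0 ch H x) =
  (Scheme.ΓSpecIso (CommRingCat.of B)).inv (evB X B x)

variable {s} {hs}

theorem IsEps.app (he : IsEps ch H s hs) (x : B ⊗[k] X.A0) :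
    s.app (fst ⁻¹ᵁ ch.U) (mu0 ch H x) = bet hs (evB X B x) := by
  rw [bet_apply, ← he x]
  show _ = ro hs.le (ro hs.ge (s.app (fst ⁻¹ᵁ ch.U) (mu0 ch H x)))
  rw [ro_ro, ro_self]

theorem IsEps.surj (he : IsEps ch H s hs) : Function.Surjective (s.app (fst ⁻¹ᵁ ch.U)) := by
  intro r
  obtain ⟨b, rfl⟩ := (bet hs).surjective r
  refine ⟨mu0 ch H (b ⊗ₜ 1), ?_⟩
  rw [he.app, evB_tmul, map_one, map_one, mul_one]

variable {𝓜 : Y.Modules} (hM : LocFree 𝓜 ⊤)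

/-- `Γ(𝓜, U_B) ≃ M0` -/
def secEquiv : Γ(𝓜, fst ⁻¹ᵁ ch.U) ≃ (toLD ch H 𝓜 hM).M0 :=
  Equiv.ofBijective (fun t => ⟨rs 𝓜 (leU ch fst) t, ⟨t, rfl⟩⟩)
    ⟨fun _ _ hab => rsU_injective ch H hM (congrArg Subtype.val hab),
      fun ⟨_, t, ht⟩ => ⟨t, Subtype.ext ht⟩⟩

theorem secEquiv_add (a b : Γ(𝓜, fst ⁻¹ᵁ ch.U)) :
    secEquiv ch H hM (a + b) = secEquiv ch H hM a + secEquiv ch H hM b :=
  Subtype.ext (map_add (rs 𝓜 (leU ch fst)) a b)

theorem secEquiv_smul_coe (x : B ⊗[k] X.A0) (t : Γ(𝓜, fst ⁻¹ᵁ ch.U)) :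
    ((secEquiv ch H hM (mu0 ch H x • t) : (toLD ch H 𝓜 hM).M0) : (toLD ch H 𝓜 hM).M) =
      x • ((secEquiv ch H hM t : (toLD ch H 𝓜 hM).M0) : (toLD ch H 𝓜 hM).M) := by
  have e1 : rs 𝓜 (leU ch fst) (mu0 ch H x • t) =
    muA ch H (Fermat.Agent.JKL.ι0 X B x) • rs 𝓜 (leU ch fst) t := by rw [rs_smul, ro_mu0]
  exact e1.trans ((toLD_smul ch H hM (Fermat.Agent.JKL.ι0 X B x) _).symm.trans
    (Fermat.Agent.JKL.ι0_smul (toLD ch H 𝓜 hM) x _))

theorem secEquiv_smulB (b : B) (t : Γ(𝓜, fst ⁻¹ᵁ ch.U)) :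
    secEquiv ch H hM (mu0 ch H (b ⊗ₜ 1) • t) = b • secEquiv ch H hM t := by
  apply Subtype.ext
  rw [secEquiv_smul_coe, PreLD.tmul_smul0]
  show b • ((1 : X.A0) : X.A) • _ = _
  rw [OneMemClass.coe_one, one_smul]
  rfl

theorem secEquiv_smulA (a : X.A0) (t : Γ(𝓜, fst ⁻¹ᵁ ch.U)) :
    secEquiv ch H hM (mu0 ch H (1 ⊗ₜ a) • t) =
      ⟨(a : X.A) • ((secEquiv ch H hM t : (toLD ch H 𝓜 hM).M0) : (toLD ch H 𝓜 hM).M),
        (toLD ch H 𝓜 hM).smul0 _ a.2 _ (secEquiv ch H hM t).2⟩ := by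
  apply Subtype.ext
  rw [secEquiv_smul_coe, PreLD.tmul_smul0, one_smul]

/-- the functional on `M0` attached to a semilinear functional -/
def lamOfFn (F : Fn s 𝓜 (fst ⁻¹ᵁ ch.U)) (m : (toLD ch H 𝓜 hM).M0) : B :=
  (bet hs).symm (F.lam ((secEquiv ch H hM).symm m))

theorem lamOfFn_secEquiv (F : Fn s 𝓜 (fst ⁻¹ᵁ ch.U)) (t : Γ(𝓜, fst ⁻¹ᵁ ch.U)) :
    lamOfFn ch H hM (hs := hs) F (secEquiv ch H hM t) = (bet hs).symm (F.lam t) := by
  rw [lamOfFn, Equiv.symm_apply_apply]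

theorem lamOfFn_smul (he : IsEps ch H s hs) (F : Fn s 𝓜 (fst ⁻¹ᵁ ch.U)) (x : B ⊗[k] X.A0)
    (t : Γ(𝓜, fst ⁻¹ᵁ ch.U)) : lamOfFn ch H hM (hs := hs) F (secEquiv ch H hM (mu0 ch H x • t)) =
      evB X B x * lamOfFn ch H hM (hs := hs) F (secEquiv ch H hM t) := by
  rw [lamOfFn_secEquiv, lamOfFn_secEquiv, F.smul, he.app, map_mul, RingEquiv.symm_apply_apply]

theorem lamOfFn_add (F : Fn s 𝓜 (fst ⁻¹ᵁ ch.U)) (m n : (toLD ch H 𝓜 hM).M0) :
    lamOfFn ch H hM (hs := hs) F (m + n) =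
      lamOfFn ch H hM (hs := hs) F m + lamOfFn ch H hM (hs := hs) F n := by
  obtain ⟨a, rfl⟩ := (secEquiv ch H hM).surjective m
  obtain ⟨b, rfl⟩ := (secEquiv ch H hM).surjective n
  rw [← secEquiv_add, lamOfFn_secEquiv, lamOfFn_secEquiv, lamOfFn_secEquiv, map_add, map_add]

theorem lamOfFn_smulB (he : IsEps ch H s hs) (F : Fn s 𝓜 (fst ⁻¹ᵁ ch.U)) (b : B)
    (m : (toLD ch H 𝓜 hM).M0) :
    lamOfFn ch H hM (hs := hs) F (b • m) = b * lamOfFn ch H hM (hs := hs) F m := by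
  obtain ⟨t, rfl⟩ := (secEquiv ch H hM).surjective m
  rw [← secEquiv_smulB, lamOfFn_smul ch H hM he, evB_tmul, map_one, map_one, mul_one]

theorem lamOfFn_smulA (he : IsEps ch H s hs) (F : Fn s 𝓜 (fst ⁻¹ᵁ ch.U)) (a : X.A0)
    (m : (toLD ch H 𝓜 hM).M0) :
    lamOfFn ch H hM (hs := hs) F ⟨(a : X.A) • (m : (toLD ch H 𝓜 hM).M),
        (toLD ch H 𝓜 hM).smul0 _ a.2 _ m.2⟩ =
      algebraMap k B (X.ev a) * lamOfFn ch H hM (hs := hs) F m := by
  obtain ⟨t, rfl⟩ := (secEquiv ch H hM).surjective m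
  rw [← secEquiv_smulA, lamOfFn_smul ch H hM he, evB_tmul, one_mul]

/-- the rigidification of `toLD` attached to a semilinear functional -/
def rigOfFn (he : IsEps ch H s hs) (F : Fn s 𝓜 (fst ⁻¹ᵁ ch.U)) (hF : Function.Surjective F.lam) :
    (toLD ch H 𝓜 hM).Rig where
  lam :=
    { toFun := lamOfFn ch H hM (hs := hs) F
      map_add' := lamOfFn_add ch H hM F
      map_smul' := lamOfFn_smulB ch H hM he F }
  smul a m := lamOfFn_smulA ch H hM he F a m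
  surj := by
    intro b
    obtain ⟨t, ht⟩ := hF (bet hs b)
    refine ⟨secEquiv ch H hM t, ?_⟩
    show lamOfFn ch H hM (hs := hs) F (secEquiv ch H hM t) = b
    rw [lamOfFn_secEquiv, ht, RingEquiv.symm_apply_apply]

theorem rig_smul (R : (toLD ch H 𝓜 hM).Rig) (x : B ⊗[k] X.A0) (t : Γ(𝓜, fst ⁻¹ᵁ ch.U)) :
    R.lam (secEquiv ch H hM (mu0 ch H x • t)) = evB X B x * R.lam (secEquiv ch H hM t) := by
  induction x using TensorProduct.induction_on with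
  | zero =>
    have : secEquiv ch H hM (0 : Γ(𝓜, fst ⁻¹ᵁ ch.U)) = 0 :=
      Subtype.ext (map_zero (rs 𝓜 (leU ch fst)))
    rw [map_zero, zero_smul, this, map_zero, map_zero, zero_mul]
  | tmul b a =>
    have h1 : (b ⊗ₜ[k] a : B ⊗[k] X.A0) = (b ⊗ₜ 1) * (1 ⊗ₜ a) := by
      rw [Algebra.TensorProduct.tmul_mul_tmul, mul_one, one_mul]
    rw [h1, map_mul, map_mul, mul_smul, secEquiv_smulB, map_smul, secEquiv_smulA, R.smul,
      evB_tmul, evB_tmul, map_one, map_one, mul_one, one_mul, smul_eq_mul, mul_assoc]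
  | add x y hx hy =>
    rw [map_add, add_smul, secEquiv_add, map_add, hx, hy, map_add, add_mul]

/-- the functional attached to a rigidification of `toLD` -/
def fnOfRig (he : IsEps ch H s hs) (R : (toLD ch H 𝓜 hM).Rig) : Fn s 𝓜 (fst ⁻¹ᵁ ch.U) where
  lam := AddMonoidHom.mk' (fun t => bet hs (R.lam (secEquiv ch H hM t))) (fun a b => by
    rw [secEquiv_add, map_add, map_add])
  smul a t := by
    obtain ⟨x, rfl⟩ := (mu0_bij ch H).2 a
    show bet hs (R.lam (secEquiv ch H hM (mu0 ch H x • t))) = _ * bet hs _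
    rw [rig_smul, map_mul, he.app]

theorem surjective_fnOfRig (he : IsEps ch H s hs) (R : (toLD ch H 𝓜 hM).Rig) :
    Function.Surjective (fnOfRig ch H hM he R).lam := by
  intro r
  obtain ⟨b, rfl⟩ := (bet hs).surjective r
  obtain ⟨m, rfl⟩ := R.surj b
  obtain ⟨t, rfl⟩ := (secEquiv ch H hM).surjective m
  exact ⟨t, rfl⟩

/-- **(E-d)** the line datum of `𝓜` can be rigidified iff `ε_B^* 𝓜` is trivial -/
theorem nonempty_rig_iff (he : IsEps ch H s hs) :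
    Nonempty (toLD ch H 𝓜 hM).Rig ↔ Nonempty ((Modules.pullback s).obj 𝓜 ≅ un _) := by
  rw [nonempty_iso_iff s (aff0 ch H) (hM.mono le_top) hs he.surj]
  constructor
  · rintro ⟨R⟩
    exact ⟨fnOfRig ch H hM he R, surjective_fnOfRig ch H hM he R⟩
  · rintro ⟨F, hF⟩
    exact ⟨rigOfFn ch H hM he F hF⟩

/-- the section `ε_B` of `C_B` -/
theorem isEps_rigSection (B : Type u) [CommRing B] [Algebra k B] :
    IsEps ch (isPullback_B c B) (rigSection c (sB k B) ε) (ch.rig_preimage B) :=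
  fun x => ch.rig_m0 B x

/-- **(E-d)** for the chosen base change -/
theorem nonempty_rig_iff' (B : Type u) [CommRing B] [Algebra k B] {𝓜 : (CB c B).Modules}
    (hM : LocFree 𝓜 ⊤) :
    Nonempty (toLD ch (isPullback_B c B) 𝓜 hM).Rig ↔
      Nonempty ((Modules.pullback (rigSection c (sB k B) ε)).obj 𝓜 ≅ un _) :=
  nonempty_rig_iff ch _ hM (isEps_rigSection ch B)

end

end Fermat.Agent.JEr
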