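import Fermat.Agent.JE.Inv

/-!
# S25, block E, Q7: rigidifications along a section through an affine open
-/

set_option autoImplicit false

universe u

open CategoryTheory CategoryTheory.Limits AlgebraicGeometry TopologicalSpace Opposite
open AlgebraicGeometry.Scheme
open Fermat.Agent.JPb (Gen pb un)

namespace Fermat.Agent.JEr

open Fermat.Agent.JE

noncomputable section

variable {X S : Scheme.{u}}

/-- being a frame is local -/
theorem gen_local {M : X.Modules} {U : X.Opens} (e : Γ(M, U))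
    (key : ∀ x ∈ U, ∃ V : X.Opens, x ∈ V ∧ ∃ h : V ≤ U, Gen M V (rs M h e)) : Gen M U e := by
  have key' : ∀ x : U, ∃ V : X.Opens, (x : X) ∈ V ∧ ∃ h : V ≤ U, Gen M V (rs M h e) :=
    fun x => key x x.2
  choose V hxV hVU hV using key'
  intro W hWU
  have hcov : W ≤ ⨆ x : U, V x ⊓ W := by
    intro x hx
    exact Opens.mem_iSup.2 ⟨⟨x, hWU hx⟩, hxV _, hx⟩
  refine ⟨fun a b hab => ?_, fun m => ?_⟩
  · have hab' : a • rs M hWU e = b • rs M hWU e := hab
    refine ro_sep (fun x : U => V x ⊓ W) W (fun x => inf_le_right) hcov _ _ fun x => ?_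
    have h1 := congrArg (rs M (inf_le_right : V x ⊓ W ≤ W)) hab'
    rw [rs_smul, rs_smul, rs_rs] at h1
    have h2 := gen_iff.1 (hV x) (V x ⊓ W) inf_le_left
    refine h2.1 ?_
    simpa using h1
  · have hloc : ∀ x : U, ∃ a : Γ(X, V x ⊓ W), rs M (inf_le_right : V x ⊓ W ≤ W) m =
        a • rs M (inf_le_left.trans (hVU x)) e := by
      intro x
      obtain ⟨a, ha⟩ := gen_exists_eq (hV x) (inf_le_left : V x ⊓ W ≤ V x) (rs M inf_le_right m)
      exact ⟨a, by simpa using ha⟩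
    choose a ha using hloc
    obtain ⟨b, hb⟩ := ro_glue (fun x : U => V x ⊓ W) W
      (fun x => inf_le_right) hcov a (by
        intro x y
        have hle : (V x ⊓ W) ⊓ (V y ⊓ W) ≤ V x := inf_le_left.trans inf_le_left
        refine (gen_iff.1 (hV x) _ hle).1 ?_
        have h1 := congrArg (rs M (inf_le_left : (V x ⊓ W) ⊓ (V y ⊓ W) ≤ _)) (ha x)
        have h2 := congrArg (rs M (inf_le_right : (V x ⊓ W) ⊓ (V y ⊓ W) ≤ _)) (ha y)
        rw [rs_rs, rs_smul, rs_rs] at h1 h2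
        show ro _ (a x) • _ = ro _ (a y) • _
        rw [rs_rs, ← h1, ← h2])
    refine ⟨b, ?_⟩
    show b • rs M hWU e = m
    refine rs_sep (fun x : U => V x ⊓ W) W (fun x => inf_le_right) hcov _ _ fun x => ?_
    rw [rs_smul, rs_rs, ha x]
    congr 1
    exact hb x

/-- coordinates up to powers of `f` -/
theorem exists_pow_smul_eq {M : X.Modules} {U : X.Opens} (hU : IsAffineOpen U) (hM : LocFree M U)
    {g : Γ(X, U)} {t : Γ(M, U)} (ht : Gen M (X.basicOpen g) (rs M (X.basicOpen_le g) t))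
    (m : Γ(M, U)) : ∃ (K : ℕ) (a : Γ(X, U)), g ^ K • m = a • t := by
  obtain ⟨a, ha⟩ := gen_exists_eq ht le_rfl (rs M (X.basicOpen_le g) m)
  rw [rs_rs] at ha
  obtain ⟨K, y, hy⟩ := exists_eq_pow_mul_of_isAffineOpen X U hU g a
  have hy' : ro (X.basicOpen_le g) y = ro (X.basicOpen_le g) g ^ K * a := hy
  have h0 : rs M (X.basicOpen_le g) (g ^ K • m - y • t) = 0 := by
    rw [map_sub, rs_smul, rs_smul, ha, hy', map_pow, mul_smul, sub_self]
  obtain ⟨K1, hK1⟩ := pow_smul_eq_zero hU hM _ _ h0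
  refine ⟨K1 + K, g ^ K1 * y, ?_⟩
  rw [smul_sub, sub_eq_zero, smul_smul, smul_smul, ← pow_add] at hK1
  exact hK1

variable (s : S ⟶ X) {M : X.Modules} {U : X.Opens}

theorem app_ro {V : X.Opens} (h : V ≤ U) (a : Γ(X, U)) :
    s.app V (ro h a) = ro ((Opens.map s.base).monotone h) (s.app U a) := by
  have := s.naturality (homOfLE h).op
  exact congr($this a)

theorem pb_rs {V : X.Opens} (h : V ≤ U) (m : Γ(M, U)) :
    pb s M V (rs M h m) = rs _ ((Opens.map s.base).monotone h) (pb s M U m) :=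
  Fermat.Agent.JPb.pb_map s M (homOfLE h) m

/-- a semilinear functional -/
structure Fn (s : S ⟶ X) (M : X.Modules) (U : X.Opens) where
  lam : Γ(M, U) →+ Γ(S, s ⁻¹ᵁ U)
  smul : ∀ (a : Γ(X, U)) (m : Γ(M, U)), lam (a • m) = s.app U a * lam m

theorem isUnit_app_basicOpen (g : Γ(X, U)) :
    IsUnit (ro ((Opens.map s.base).monotone (X.basicOpen_le g)) (s.app U g)) := by
  rw [← app_ro]
  exact (isUnit_ro g).map (s.app (X.basicOpen g)).hom

/-- **Q7, first half** -/
theorem gen_pb_of_isUnit (hU : IsAffineOpen U) (hM : LocFree M U) (F : Fn s M U) {m₀ : Γ(M, U)}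
    (h₀ : IsUnit (F.lam m₀)) : Gen ((Modules.pullback s).obj M) (s ⁻¹ᵁ U) (pb s M U m₀) := by
  apply gen_local
  intro y hy
  have hx : s.base y ∈ U := hy
  obtain ⟨g, t, hxg, ht⟩ := exists_gen hU hM hx
  refine ⟨s ⁻¹ᵁ (X.basicOpen g), hxg, (Opens.map s.base).monotone (X.basicOpen_le g), ?_⟩
  rw [← pb_rs s (X.basicOpen_le g)]
  obtain ⟨a, ha⟩ := gen_exists_eq ht le_rfl (rs M (X.basicOpen_le g) m₀)
  rw [rs_rs] at ha
  obtain ⟨K, b, hb⟩ := exists_pow_smul_eq hU hM ht m₀
  -- `b = g ^ K a` on `D(g)`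
  have h1 : ro (X.basicOpen_le g) b = ro (X.basicOpen_le g) g ^ K * a := by
    have h2 := congrArg (rs M (X.basicOpen_le g)) hb
    rw [rs_smul, rs_smul, ha, smul_smul, map_pow] at h2
    have h3 := (gen_iff.1 ht _ le_rfl).1
    refine h3 ?_
    show ro (X.basicOpen_le g) b • rs M le_rfl (rs M (X.basicOpen_le g) t) =
      (ro (X.basicOpen_le g) g ^ K * a) • rs M le_rfl (rs M (X.basicOpen_le g) t)
    rw [rs_rs, ← h2]
  have h4 : s.app U g ^ K * F.lam m₀ = s.app U b * F.lam t := by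
    rw [← F.smul, ← hb, F.smul, map_pow]
  have hle := (Opens.map s.base).monotone (X.basicOpen_le g)
  have h5 : IsUnit (ro hle (s.app U b)) := by
    have h6 := congrArg (ro hle) h4
    rw [map_mul, map_mul, map_pow] at h6
    have h7 : IsUnit (ro hle (s.app U b) * ro hle (F.lam t)) := by
      rw [← h6]
      exact ((isUnit_app_basicOpen s g).pow K).mul (h₀.map (ro hle))
    exact isUnit_of_mul_isUnit_left h7
  have h8 : IsUnit (s.app (X.basicOpen g) a) := by
    rw [← app_ro s (X.basicOpen_le g), h1, map_mul] at h5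
    exact isUnit_of_mul_isUnit_right h5
  rw [ha, Fermat.Agent.JPb.pb_smul]
  exact gen_unit_smul (Fermat.Agent.JPb.gen_pb s ht) h8

theorem iso_of_gen {N : S.Modules} {W : S.Opens} (hW : W = ⊤) {e : Γ(N, W)} (he : Gen N W e) :
    Nonempty (N ≅ un S) := by
  subst hW
  have := Fermat.Agent.JPb.isIso_homOfSection he
  exact ⟨(asIso (Fermat.Agent.JPb.homOfSection N e)).symm⟩

theorem iso_of_fn (hU : IsAffineOpen U) (hM : LocFree M U) (hsU : s ⁻¹ᵁ U = ⊤) (F : Fn s M U)
    (h₀ : ∃ m₀, IsUnit (F.lam m₀)) : Nonempty ((Modules.pullback s).obj M ≅ un S) := by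
  obtain ⟨m₀, h₀⟩ := h₀
  exact iso_of_gen hsU (gen_pb_of_isUnit s hU hM F h₀)

/-- the functional attached to a trivialisation of the pull-back -/
def fnOfIso (φ : (Modules.pullback s).obj M ≅ un S) : Fn s M U where
  lam := AddMonoidHom.mk' (fun m => φ.hom.app (s ⁻¹ᵁ U) (pb s M U m)) (fun a b => by
    rw [Fermat.Agent.JPb.pb_add]
    exact map_add _ _ _)
  smul a m := by
    show φ.hom.app (s ⁻¹ᵁ U) (pb s M U (a • m)) = _
    rw [Fermat.Agent.JPb.pb_smul]
    exact Modules.Hom.app_smul φ.hom _ _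

theorem fnOfIso_apply (φ : (Modules.pullback s).obj M ≅ un S) (m : Γ(M, U)) :
    (fnOfIso s φ : Fn s M U).lam m = φ.hom.app (s ⁻¹ᵁ U) (pb s M U m) := rfl

theorem isUnit_of_gen_un {W : S.Opens} {e : Γ(S, W)} (he : Gen (un S) W e) : IsUnit e := by
  obtain ⟨b, hb⟩ := (he W le_rfl).2 (1 : Γ(S, W))
  have h1 : b * e = 1 := by
    have h2 : (un S).presheaf.map (homOfLE (le_rfl : W ≤ W)).op e = e := by
      have : (homOfLE (le_rfl : W ≤ W)) = 𝟙 _ := rfl
      rw [this, op_id, (un S).presheaf.map_id]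
      rfl
    have h3 : b • (un S).presheaf.map (homOfLE (le_rfl : W ≤ W)).op e = (1 : Γ(S, W)) := hb
    rw [h2] at h3
    exact h3
  exact IsUnit.of_mul_eq_one_right _ h1

/-- **Q7, second half** -/
theorem surjective_fnOfIso (hU : IsAffineOpen U) (hM : LocFree M U)
    (hW : IsAffineOpen (s ⁻¹ᵁ U)) (hsurj : Function.Surjective (s.app U))
    (φ : (Modules.pullback s).obj M ≅ un S) :
    Function.Surjective (fnOfIso s φ : Fn s M U).lam := by
  set F : Fn s M U := fnOfIso s φ with hF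
  obtain ⟨n, g, t, -, hspan, ht⟩ := exists_gen_cover hU hM
  -- the image ideal
  let I : Ideal Γ(S, s ⁻¹ᵁ U) :=
    { carrier := Set.range F.lam
      add_mem' := by
        rintro _ _ ⟨a, rfl⟩ ⟨b, rfl⟩
        exact ⟨a + b, map_add _ _ _⟩
      zero_mem' := ⟨0, map_zero _⟩
      smul_mem' := by
        rintro r _ ⟨m, rfl⟩
        obtain ⟨a, rfl⟩ := hsurj r
        exact ⟨a • m, F.smul a m⟩ }
  have hI : ∀ i, ∃ K : ℕ, s.app U (g i) ^ K ∈ I := by
    intro i
    have hle := (Opens.map s.base).monotone (X.basicOpen_le (g i))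
    have h1 : IsUnit (ro hle (F.lam (t i))) := by
      have h2 := Fermat.Agent.JPb.gen_pb s (ht i)
      have h3 := h2.of_iso φ.hom
      have h4 := isUnit_of_gen_un h3
      have h5 : ro hle (F.lam (t i)) = φ.hom.app (s ⁻¹ᵁ X.basicOpen (g i))
          (pb s M (X.basicOpen (g i)) (rs M (X.basicOpen_le (g i)) (t i))) := by
        rw [pb_rs]
        exact (Fermat.Agent.JPb.app_map φ.hom (homOfLE hle) (pb s M U (t i))).symm
      rw [h5]
      exact h4
    have hb : s ⁻¹ᵁ (X.basicOpen (g i)) = S.basicOpen (s.app U (g i)) :=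
      Scheme.preimage_basicOpen s (g i)
    have h6 : IsUnit (ro (S.basicOpen_le (s.app U (g i))) (F.lam (t i))) := by
      have h7 := h1.map (ro hb.ge)
      rwa [ro_ro] at h7
    have := hW.isLocalization_basicOpen (s.app U (g i))
    obtain ⟨m, ⟨K, rfl⟩, c, hc⟩ := (IsLocalization.algebraMap_isUnit_iff
      (Submonoid.powers (s.app U (g i)))).1 h6
    refine ⟨K, ?_⟩
    show s.app U (g i) ^ K ∈ I
    have hc' : s.app U (g i) ^ K = F.lam (t i) * c := hc
    rw [hc']
    exact I.mul_mem_right c ⟨t i, rfl⟩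
  have htop : I = ⊤ := by
    rw [← Ideal.radical_eq_top, eq_top_iff, ← Ideal.map_top (s.app U).hom, ← hspan,
      Ideal.map_span, Ideal.span_le]
    rintro _ ⟨_, ⟨i, rfl⟩, rfl⟩
    exact hI i
  intro r
  have : r ∈ I := by rw [htop]; trivial
  exact this

/-- **Q7** -/
theorem nonempty_iso_iff [IsAffine S] (hU : IsAffineOpen U) (hM : LocFree M U)
    (hsU : s ⁻¹ᵁ U = ⊤) (hsurj : Function.Surjective (s.app U)) :
    Nonempty ((Modules.pullback s).obj M ≅ un S) ↔
      ∃ F : Fn s M U, Function.Surjective F.lam := by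
  constructor
  · rintro ⟨φ⟩
    refine ⟨fnOfIso s φ, surjective_fnOfIso s hU hM ?_ hsurj φ⟩
    rw [hsU]
    exact isAffineOpen_top S
  · rintro ⟨F, hF⟩
    obtain ⟨m, hm⟩ := hF 1
    exact iso_of_fn s hU hM hsU F ⟨m, by rw [hm]; exact isUnit_one⟩

end

end Fermat.Agent.JEr
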